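/-
S51, 5-torsion side (helper6). Part 1: x-coordinate calculus for the group law on a
Weierstrass curve over a field: the duplication formula in terms of the `b`-invariants.
-/
import Mathlib

set_option autoImplicit false
set_option linter.unusedSectionVars false
set_option linter.unusedSimpArgs false

namespace Fermat.Agent.S51T5c

open WeierstrassCurve WeierstrassCurve.Affine

variable {F : Type*} [Field F] (W : Affine F)

/-- `f(x) = 4x³ + b₂x² + 2b₄x + b₆`, the square of `ψ₂` on the curve. -/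
def fX (x : F) : F := 4 * x ^ 3 + W.b₂ * x ^ 2 + 2 * W.b₄ * x + W.b₆

/-- `g(x) = x⁴ - b₄x² - 2b₆x - b₈`, the numerator of the `x`-coordinate of `2P`. -/
def gX (x : F) : F := x ^ 4 - W.b₄ * x ^ 2 - 2 * W.b₆ * x - W.b₈

/-- `ψ₃(x) = 3x⁴ + b₂x³ + 3b₄x² + 3b₆x + b₈`. -/
def p3X (x : F) : F := 3 * x ^ 4 + W.b₂ * x ^ 3 + 3 * W.b₄ * x ^ 2 + 3 * W.b₆ * x + W.b₈

/-- The polynomial `ψ₄ / ψ₂`. -/
def hX (x : F) : F :=
  2 * x ^ 6 + W.b₂ * x ^ 5 + 5 * W.b₄ * x ^ 4 + 10 * W.b₆ * x ^ 3 + 10 * W.b₈ * x ^ 2 +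
    (W.b₂ * W.b₈ - W.b₄ * W.b₆) * x + (W.b₄ * W.b₈ - W.b₆ ^ 2)

/-- `ψ₅ = ψ₄/ψ₂ · f² - ψ₃³`. -/
def p5X (x : F) : F := hX W x * fX W x ^ 2 - p3X W x ^ 3

theorem gX_sub_mul_fX (x : F) : gX W x - x * fX W x = - p3X W x := by
  simp only [gX, fX, p3X]; ring

/-- On the curve, `(y - negY)² = f(x)`. -/
theorem sq_sub_negY {x y : F} (h : W.Equation x y) : (y - W.negY x y) ^ 2 = fX W x := by
  rw [equation_iff] at h
  simp only [negY, fX, WeierstrassCurve.b₂, WeierstrassCurve.b₄, WeierstrassCurve.b₆]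
  linear_combination 4 * h

theorem fX_ne_zero_of_Y_ne {x y : F} (h : W.Equation x y) (hy : y ≠ W.negY x y) :
    fX W x ≠ 0 := by
  rw [← sq_sub_negY W h]
  exact pow_ne_zero 2 (sub_ne_zero.mpr hy)

theorem fX_eq_zero_of_Y_eq {x y : F} (h : W.Equation x y) (hy : y = W.negY x y) :
    fX W x = 0 := by
  rw [← sq_sub_negY W h, sub_eq_zero.mpr hy]
  ring

variable [DecidableEq F]

/-- The duplication formula: `x(2P) · f(x) = g(x)`. -/
theorem addX_slope_mul_fX {x y : F} (h : W.Equation x y) (hy : y ≠ W.negY x y) :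
    W.addX x x (W.slope x x y y) * fX W x = gX W x := by
  have hD : y - W.negY x y ≠ 0 := sub_ne_zero.mpr hy
  rw [slope_of_Y_ne rfl hy, ← sq_sub_negY W h]
  have h' := h
  rw [equation_iff] at h'
  simp only [addX]
  field_simp
  simp only [negY, gX, WeierstrassCurve.b₂, WeierstrassCurve.b₄, WeierstrassCurve.b₆,
    WeierstrassCurve.b₈]
  linear_combination (-(8 * x + W.a₁ ^ 2 + 4 * W.a₂)) * h'

/-- `P` is an affine point with `x`-coordinate `x`. -/
def HasX (P : W.Point) (x : F) : Prop := ∃ (y : F) (h : W.Nonsingular x y), P = Point.some x y h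

variable {W}

theorem HasX.ne_zero {P : W.Point} {x : F} (h : HasX W P x) : P ≠ 0 := by
  obtain ⟨y, hn, rfl⟩ := h
  exact Point.some_ne_zero hn

theorem HasX.unique {P : W.Point} {x x' : F} (h : HasX W P x) (h' : HasX W P x') : x = x' := by
  obtain ⟨y, hn, rfl⟩ := h
  obtain ⟨y', hn', h2⟩ := h'
  injection h2

theorem HasX.neg {P : W.Point} {x : F} (h : HasX W P x) : HasX W (-P) x := by
  obtain ⟨y, hn, rfl⟩ := h
  exact ⟨_, _, Point.neg_some hn⟩

theorem HasX.of_neg {P : W.Point} {x : F} (h : HasX W (-P) x) : HasX W P x := by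
  have := h.neg
  rwa [neg_neg] at this

theorem exists_hasX_of_ne_zero {P : W.Point} (h : P ≠ 0) : ∃ x, HasX W P x := by
  rcases P with _ | ⟨x, y, hn⟩
  · exact absurd rfl h
  · exact ⟨x, y, hn, rfl⟩

theorem HasX.eq_or_eq_neg {P Q : W.Point} {x : F} (hP : HasX W P x) (hQ : HasX W Q x) :
    Q = P ∨ Q = -P := by
  obtain ⟨y, hn, rfl⟩ := hP
  obtain ⟨y', hn', rfl⟩ := hQ
  exact (Point.X_eq_iff (h₁ := hn') (h₂ := hn)).mp rfl

/-- Doubling: if `f(x) ≠ 0` then `2P` is affine with `x`-coordinate `g(x)/f(x)`. -/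
theorem hasX_some_of_eq {x x' y' : F} (h' : W.Nonsingular x' y') (hx : x' = x) :
    HasX W (Point.some x' y' h') x := by
  subst hx
  exact ⟨y', h', rfl⟩

theorem HasX.add_self {P : W.Point} {x : F} (h : HasX W P x) (hf : fX W x ≠ 0) :
    HasX W (P + P) (gX W x / fX W x) := by
  obtain ⟨y, hn, rfl⟩ := h
  have hy : y ≠ W.negY x y := by
    intro hy
    exact hf (fX_eq_zero_of_Y_eq W hn.1 hy)
  rw [Point.add_self_of_Y_ne hy]
  apply hasX_some_of_eq
  rw [eq_div_iff hf]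
  exact addX_slope_mul_fX W hn.1 hy

theorem HasX.add_self_eq_zero_iff {P : W.Point} {x : F} (h : HasX W P x) :
    P + P = 0 ↔ fX W x = 0 := by
  constructor
  · intro h2
    by_contra hf
    exact (h.add_self hf).ne_zero h2
  · intro hf
    obtain ⟨y, hn, rfl⟩ := h
    have hy : y = W.negY x y := by
      by_contra hy
      exact fX_ne_zero_of_Y_ne W hn.1 hy hf
    exact Point.add_self_of_Y_eq hy

end Fermat.Agent.S51T5c
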