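/-
S51, 5-torsion side (helper6). Part 2: division-polynomial identities for `4P` and the
characterisation of points of order `5` through their `x`-coordinates.
-/
import Mathlib
import Fermat.Agent.S51.T5c.Dup

set_option autoImplicit false
set_option linter.unusedSectionVars false
set_option linter.unusedSimpArgs false

namespace Fermat.Agent.S51T5c

open WeierstrassCurve WeierstrassCurve.Affine

variable {F : Type*} [Field F] (W : Affine F)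

/-- `16 ψ₃ = 2 f f'' - f'²`. -/
theorem sixteen_mul_p3X (x : F) :
    16 * p3X W x = 2 * fX W x * (24 * x + 2 * W.b₂) - (12 * x ^ 2 + 2 * W.b₂ * x + 2 * W.b₄) ^ 2 := by
  have hrel := W.b_relation
  simp only [p3X, fX]
  linear_combination 4 * hrel

/-- `f(g/f) · f³ = h²` in polynomial form. -/
theorem fX_dup_poly (x : F) :
    4 * gX W x ^ 3 + W.b₂ * gX W x ^ 2 * fX W x + 2 * W.b₄ * gX W x * fX W x ^ 2
      + W.b₆ * fX W x ^ 3 = hX W x ^ 2 := by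
  have hrel := W.b_relation
  simp only [gX, fX, hX]
  linear_combination (-13*x^8 - 8*x^7*W.b₂ - x^6*W.b₂^2 - 28*x^6*W.b₄ - 6*x^5*W.b₂*W.b₄ - 38*x^5*W.b₆ - 7*x^4*W.b₂*W.b₆ - 8*x^4*W.b₄^2 - 22*x^4*W.b₈ - 4*x^3*W.b₂*W.b₈ - 16*x^3*W.b₄*W.b₆ - 8*x^2*W.b₄*W.b₈ - 7*x^2*W.b₆^2 - 6*x*W.b₆*W.b₈ - W.b₈^2) * hrel

/-- The numerator of `x(4P) - x(P)` is `-ψ₃ψ₅`. -/
theorem key5_poly (x : F) :
    (gX W x ^ 4 - W.b₄ * gX W x ^ 2 * fX W x ^ 2 - 2 * W.b₆ * gX W x * fX W x ^ 3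
        - W.b₈ * fX W x ^ 4) - x * fX W x * hX W x ^ 2 = - (p3X W x * p5X W x) := by
  have hrel := W.b_relation
  simp only [gX, fX, hX, p3X, p5X]
  linear_combination (-4*x^12 - 5*x^11*W.b₂ - x^10*W.b₂^2 - 42*x^10*W.b₄ - 16*x^9*W.b₂*W.b₄ - 93*x^9*W.b₆ - x^8*W.b₂^2*W.b₄ - 36*x^8*W.b₂*W.b₆ - 28*x^8*W.b₄^2 - 72*x^8*W.b₈ - 3*x^7*W.b₂^2*W.b₆ - 4*x^7*W.b₂*W.b₄^2 - 30*x^7*W.b₂*W.b₈ - 84*x^7*W.b₄*W.b₆ - 3*x^6*W.b₂^2*W.b₈ - 14*x^6*W.b₂*W.b₄*W.b₆ - 4*x^6*W.b₄^3 - 60*x^6*W.b₄*W.b₈ - 39*x^6*W.b₆^2 - 12*x^5*W.b₂*W.b₄*W.b₈ - 7*x^5*W.b₂*W.b₆^2 - 16*x^5*W.b₄^2*W.b₆ - 38*x^5*W.b₆*W.b₈ - 8*x^4*W.b₂*W.b₆*W.b₈ - 12*x^4*W.b₄^2*W.b₈ - 15*x^4*W.b₄*W.b₆^2 - 4*x^4*W.b₈^2 - x^3*W.b₂*W.b₈^2 - 16*x^3*W.b₄*W.b₆*W.b₈ - 4*x^3*W.b₆^3 - 2*x^2*W.b₄*W.b₈^2 - 5*x^2*W.b₆^2*W.b₈ - x*W.b₆*W.b₈^2) * hrel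

/-- `f(x₂) · f(x)³ = h(x)²` for `x₂ = g(x)/f(x)`. -/
theorem fX_dup {x : F} (hf : fX W x ≠ 0) :
    fX W (gX W x / fX W x) * fX W x ^ 3 = hX W x ^ 2 := by
  rw [← fX_dup_poly W x]
  generalize gX W x = g
  generalize hfv : fX W x = f at hf
  simp only [fX]
  field_simp

/-- `g(x₂) · f(x)⁴ = G₂(x)` for `x₂ = g(x)/f(x)`. -/
theorem gX_dup {x : F} (hf : fX W x ≠ 0) :
    gX W (gX W x / fX W x) * fX W x ^ 4 =
      gX W x ^ 4 - W.b₄ * gX W x ^ 2 * fX W x ^ 2 - 2 * W.b₆ * gX W x * fX W x ^ 3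
        - W.b₈ * fX W x ^ 4 := by
  generalize hgv : gX W x = g
  generalize hfv : fX W x = f at hf
  simp only [gX]
  field_simp

/-- If `x₂ = g(x)/f(x)` and `x₄ = g(x₂)/f(x₂)` then `(x₄ - x) f(x) h(x)² = -ψ₃(x)ψ₅(x)`. -/
theorem key5 {x : F} (hf : fX W x ≠ 0) (hf2 : fX W (gX W x / fX W x) ≠ 0) :
    (gX W (gX W x / fX W x) / fX W (gX W x / fX W x) - x) * (fX W x * hX W x ^ 2)
      = - (p3X W x * p5X W x) := by
  rw [← key5_poly W x, ← gX_dup W hf, ← fX_dup W hf]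
  field_simp

theorem hX_ne_zero_iff {x : F} (hf : fX W x ≠ 0) :
    hX W x ≠ 0 ↔ fX W (gX W x / fX W x) ≠ 0 := by
  have h := fX_dup W hf
  constructor
  · intro hh h0
    rw [h0, zero_mul] at h
    exact hh (pow_eq_zero_iff (two_ne_zero)|>.mp h.symm)
  · intro h2 hh
    rw [hh] at h
    have : fX W (gX W x / fX W x) * fX W x ^ 3 ≠ 0 := mul_ne_zero h2 (pow_ne_zero 3 hf)
    exact this (by rw [h]; ring)

/-- `(x₂ - x) f(x) = -ψ₃(x)` for `x₂ = g(x)/f(x)`. -/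
theorem dup_sub_mul_fX {x : F} (hf : fX W x ≠ 0) :
    (gX W x / fX W x - x) * fX W x = - p3X W x := by
  rw [← gX_sub_mul_fX W x]
  field_simp

variable [DecidableEq F] {W}

/-- The `x`-coordinate data attached to a point of order `5`. -/
theorem order_five_data {P : W.Point} (hP : P ≠ 0) (h5 : (5 : ℕ) • P = 0) {x₁ : F}
    (hx : HasX W P x₁) :
    fX W x₁ ≠ 0 ∧ HasX W (P + P) (gX W x₁ / fX W x₁) ∧ fX W (gX W x₁ / fX W x₁) ≠ 0 ∧
      gX W (gX W x₁ / fX W x₁) / fX W (gX W x₁ / fX W x₁) = x₁ ∧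
      x₁ ≠ gX W x₁ / fX W x₁ ∧ p5X W x₁ = 0 := by
  have h2 : P + P ≠ 0 := by
    intro h2
    apply hP
    have : P = (5 : ℕ) • P - 2 • (P + P) := by abel
    rw [this, h5, h2]; simp
  have hf : fX W x₁ ≠ 0 := fun hf => h2 (hx.add_self_eq_zero_iff.mpr hf)
  have hx2 := hx.add_self hf
  have h4 : (P + P) + (P + P) ≠ 0 := by
    intro h4
    apply hP
    have : P = (5 : ℕ) • P - ((P + P) + (P + P)) := by abel
    rw [this, h5, h4]; simp
  have hf2 : fX W (gX W x₁ / fX W x₁) ≠ 0 := fun hf2 => h4 (hx2.add_self_eq_zero_iff.mpr hf2)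
  have hx4 := hx2.add_self hf2
  have h4neg : (P + P) + (P + P) = -P := by
    have : (P + P) + (P + P) = (5 : ℕ) • P - P := by abel
    rw [this, h5]; simp
  rw [h4neg] at hx4
  have hx4' := hx4.of_neg
  have hx41 : gX W (gX W x₁ / fX W x₁) / fX W (gX W x₁ / fX W x₁) = x₁ := hx4'.unique hx
  have hne : x₁ ≠ gX W x₁ / fX W x₁ := by
    intro hne
    rw [← hne] at hx2
    rcases hx.eq_or_eq_neg hx2 with h | h
    · apply hP
      have : P = (P + P) - P := by abel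
      rw [this, h]; simp
    · apply hP
      have h3 : P + P + P = 0 := by rw [h]; simp
      have : P = 2 • (P + P + P) - (5 : ℕ) • P := by abel
      rw [this, h3, h5]; simp
  refine ⟨hf, hx2, hf2, hx41, hne, ?_⟩
  have hk := key5 W hf hf2
  rw [hx41, sub_self, zero_mul] at hk
  have h3 : p3X W x₁ ≠ 0 := by
    intro h3
    have := dup_sub_mul_fX W hf
    rw [h3, neg_zero] at this
    rcases mul_eq_zero.mp this with h | h
    · exact hne (sub_eq_zero.mp h).symm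
    · exact hf h
  have : p3X W x₁ * p5X W x₁ = 0 := by
    have := hk.symm
    rwa [neg_eq_zero] at this
  exact (mul_eq_zero.mp this).resolve_left h3

/-- If `f(x) = 0` and `ψ₃(x) = 0` at a point of the curve then the point is singular. -/
theorem not_fX_p3X_zero (h2 : (2 : F) ≠ 0) {x y : F} (hn : W.Nonsingular x y)
    (hf : fX W x = 0) (h3 : p3X W x = 0) : False := by
  have h16 := sixteen_mul_p3X W x
  rw [h3, hf] at h16
  have hd : 12 * x ^ 2 + 2 * W.b₂ * x + 2 * W.b₄ = 0 := by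
    have : (12 * x ^ 2 + 2 * W.b₂ * x + 2 * W.b₄) ^ 2 = 0 := by linear_combination h16
    exact pow_eq_zero_iff (two_ne_zero) |>.mp this
  have hy : y = W.negY x y := by
    by_contra hy
    exact fX_ne_zero_of_Y_ne W hn.1 hy hf
  rw [nonsingular_iff] at hn
  obtain ⟨-, hns⟩ := hn
  have hY : y = -y - W.a₁ * x - W.a₃ := by simpa [negY] using hy
  have h2Y : 2 * y + W.a₁ * x + W.a₃ = 0 := by linear_combination hY
  rcases hns with hX | hYne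
  · apply hX
    simp only [WeierstrassCurve.b₂, WeierstrassCurve.b₄] at hd
    have h4 : (2 : F) * 2 * (W.a₁ * y - (3 * x ^ 2 + 2 * W.a₂ * x + W.a₄)) = 0 := by
      linear_combination -hd + 2 * W.a₁ * h2Y
    have h4ne : (2 : F) * 2 ≠ 0 := mul_ne_zero h2 h2
    have := (mul_eq_zero.mp h4).resolve_left h4ne
    exact sub_eq_zero.mp this
  · exact hYne (by linear_combination hY)

end Fermat.Agent.S51T5c
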