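/-
S51, 5-torsion side (helper6). Part 3 (T5c): a Galois-stable subgroup of order `5` generated by
`P` gives rational numbers `r = (x(P) + x(2P))/2`, `e = ((x(P) - x(2P))/2)²` satisfying the two
kernel-polynomial relations.
-/
import Mathlib
import Fermat.Prelude.Def_FLTPrelim_GaloisRep
import Fermat.Agent.S51.T5c.Tors

set_option autoImplicit false
set_option linter.unusedSectionVars false
set_option linter.unusedSimpArgs false
set_option linter.style.haveILetI false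

namespace Fermat.Agent.S51T5c

open WeierstrassCurve WeierstrassCurve.Affine WeierstrassCurve.Affine.Point

local notation "Qbar" => AlgebraicClosure ℚ
local notation "Γℚ" => (AlgebraicClosure ℚ ≃ₐ[ℚ] AlgebraicClosure ℚ)

theorem isGalois_Qbar : IsGalois ℚ Qbar := by
  haveI : Algebra.IsAlgebraic ℚ Qbar := AlgebraicClosure.isAlgebraic ℚ
  haveI : IsAlgClosure ℚ Qbar := ⟨inferInstance, inferInstance⟩
  infer_instance

variable (E : WeierstrassCurve ℚ)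

theorem baseChange_b₂ : (E⁄Qbar).b₂ = algebraMap ℚ Qbar E.b₂ := WeierstrassCurve.map_b₂ ..
theorem baseChange_b₄ : (E⁄Qbar).b₄ = algebraMap ℚ Qbar E.b₄ := WeierstrassCurve.map_b₄ ..
theorem baseChange_b₆ : (E⁄Qbar).b₆ = algebraMap ℚ Qbar E.b₆ := WeierstrassCurve.map_b₆ ..
theorem baseChange_b₈ : (E⁄Qbar).b₈ = algebraMap ℚ Qbar E.b₈ := WeierstrassCurve.map_b₈ ..

theorem galois_fX (σ : Γℚ) (x : Qbar) : σ (fX (E⁄Qbar) x) = fX (E⁄Qbar) (σ x) := by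
  simp only [fX, baseChange_b₂, baseChange_b₄, baseChange_b₆, map_add, map_mul, map_pow,
    AlgEquiv.commutes, map_ofNat]

theorem galois_gX (σ : Γℚ) (x : Qbar) : σ (gX (E⁄Qbar) x) = gX (E⁄Qbar) (σ x) := by
  simp only [gX, baseChange_b₄, baseChange_b₆, baseChange_b₈, map_sub, map_mul, map_pow,
    AlgEquiv.commutes, map_ofNat]

theorem galois_dup (σ : Γℚ) (x : Qbar) :
    σ (gX (E⁄Qbar) x / fX (E⁄Qbar) x) = gX (E⁄Qbar) (σ x) / fX (E⁄Qbar) (σ x) := by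
  rw [map_div₀, galois_gX, galois_fX]

variable {E}

theorem hasX_galois_smul {P : (E⁄Qbar).Point} {x : Qbar} (σ : Γℚ) (h : HasX (E⁄Qbar) P x) :
    HasX (E⁄Qbar) (σ • P) (σ x) := by
  obtain ⟨y, hn, rfl⟩ := h
  rw [algEquiv_smul_def, Point.map_some]
  exact ⟨_, _, rfl⟩

/-- For a point `P` of order `5`, every nonzero multiple of `P` has `x`-coordinate `x(P)` or
`x(2P)`. -/
theorem hasX_zsmul_of_order_five {P : (E⁄Qbar).Point} (h5 : (5 : ℕ) • P = 0) {x₁ x₂ : Qbar}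
    (hx1 : HasX (E⁄Qbar) P x₁) (hx2 : HasX (E⁄Qbar) (P + P) x₂) (k : ℤ) (hk : k • P ≠ 0) :
    HasX (E⁄Qbar) (k • P) x₁ ∨ HasX (E⁄Qbar) (k • P) x₂ := by
  have h5' : (5 : ℤ) • P = 0 := by
    have : (5 : ℤ) • P = (5 : ℕ) • P := by
      rw [← Nat.cast_smul_eq_nsmul ℤ]; rfl
    rw [this, h5]
  have hkm : k • P = (k % 5) • P := by
    conv_lhs => rw [← Int.emod_add_mul_ediv k 5]
    rw [add_zsmul, mul_comm, mul_zsmul, h5', zsmul_zero, add_zero]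
  have hr : 0 ≤ k % 5 := Int.emod_nonneg k (by norm_num)
  have hr' : k % 5 < 5 := Int.emod_lt_of_pos k (by norm_num)
  rw [hkm] at hk ⊢
  have hcases : k % 5 = 0 ∨ k % 5 = 1 ∨ k % 5 = 2 ∨ k % 5 = 3 ∨ k % 5 = 4 := by omega
  rcases hcases with h | h | h | h | h <;> rw [h] at hk ⊢
  · exact absurd (zero_zsmul P) hk
  · left; rwa [one_zsmul]
  · right
    have : (2 : ℤ) • P = P + P := two_zsmul P
    rwa [this]
  · right
    have : (3 : ℤ) • P = -(P + P) := by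
      have h3 : (3 : ℤ) • P = (5 : ℤ) • P - (2 : ℤ) • P := by
        have h := sub_zsmul P 5 2
        norm_num at h
        exact h
      rw [h3, h5', zero_sub, two_zsmul]
    rw [this]
    exact hx2.neg
  · left
    have : (4 : ℤ) • P = -P := by
      have h4 : (4 : ℤ) • P = (5 : ℤ) • P - (1 : ℤ) • P := by
        have h := sub_zsmul P 5 1
        norm_num at h
        rw [one_zsmul]
        exact h
      rw [h4, h5', zero_sub, one_zsmul]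
    rw [this]
    exact hx1.neg

/-- Pure algebra: the relations `g(ξ₁) = ξ₂ f(ξ₁)`, `g(ξ₂) = ξ₁ f(ξ₂)` with `ξ₁ ≠ ξ₂` give the
two relations for `r = (ξ₁ + ξ₂)/2` and `e = ((ξ₁ - ξ₂)/2)²`. -/
theorem relations_of_dup {F : Type*} [Field F] [CharZero F] (b2 b4 b6 b8 ξ₁ ξ₂ : F)
    (hne : ξ₁ ≠ ξ₂)
    (h1 : ξ₁ ^ 4 - b4 * ξ₁ ^ 2 - 2 * b6 * ξ₁ - b8
      = ξ₂ * (4 * ξ₁ ^ 3 + b2 * ξ₁ ^ 2 + 2 * b4 * ξ₁ + b6))
    (h2 : ξ₂ ^ 4 - b4 * ξ₂ ^ 2 - 2 * b6 * ξ₂ - b8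
      = ξ₁ * (4 * ξ₂ ^ 3 + b2 * ξ₂ ^ 2 + 2 * b4 * ξ₂ + b6))
    (r e : F) (hr : 2 * r = ξ₁ + ξ₂) (he : 4 * e = (ξ₁ - ξ₂) ^ 2) :
    4 * r ^ 3 + b2 * r ^ 2 + 2 * b4 * r + b6 = (b2 + 12 * r) * e ∧
      3 * r ^ 4 + b2 * r ^ 3 + 3 * b4 * r ^ 2 + 3 * b6 * r + b8
        = 5 * e ^ 2 + (6 * r ^ 2 + b2 * r + b4) * e := by
  set d := (ξ₁ - ξ₂) / 2 with hd
  have hd0 : d ≠ 0 := by
    rw [hd]
    exact div_ne_zero (sub_ne_zero.mpr hne) two_ne_zero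
  have hξ₁ : ξ₁ = r + d := by rw [hd]; linear_combination (-(1 : F) / 2) * hr
  have hξ₂ : ξ₂ = r - d := by rw [hd]; linear_combination (-(1 : F) / 2) * hr
  have hed : e = d ^ 2 := by rw [hd]; linear_combination (1 / 4 : F) * he
  rw [hξ₁, hξ₂] at h1 h2
  subst hed
  constructor
  · -- D = G1 - Gm = -2 d R1
    have : (2 * d) * (4 * r ^ 3 + b2 * r ^ 2 + 2 * b4 * r + b6 - (b2 + 12 * r) * d ^ 2) = 0 := by
      linear_combination -h1 + h2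
    rcases mul_eq_zero.mp this with h | h
    · exact absurd h (mul_ne_zero two_ne_zero hd0)
    · exact sub_eq_zero.mp h
  · -- S = G1 + Gm = -2 R2
    have : (2 : F) * (3 * r ^ 4 + b2 * r ^ 3 + 3 * b4 * r ^ 2 + 3 * b6 * r + b8
        - (5 * (d ^ 2) ^ 2 + (6 * r ^ 2 + b2 * r + b4) * d ^ 2)) = 0 := by
      linear_combination -h1 - h2
    rcases mul_eq_zero.mp this with h | h
    · exact absurd h two_ne_zero
    · exact sub_eq_zero.mp h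

variable (E)

/-- T5c: a Galois-stable cyclic subgroup of order `5` yields the rational kernel data. -/
theorem exists_kernel_of_stable_point
    (P : (E⁄Qbar).Point) (hP : P ≠ 0) (h5 : (5 : ℕ) • P = 0)
    (hstab : ∀ σ : Γℚ, ∃ k : ℤ, σ • P = k • P) :
    ∃ r e : ℚ, e ≠ 0 ∧
      4 * r ^ 3 + E.b₂ * r ^ 2 + 2 * E.b₄ * r + E.b₆ = (E.b₂ + 12 * r) * e ∧
      3 * r ^ 4 + E.b₂ * r ^ 3 + 3 * E.b₄ * r ^ 2 + 3 * E.b₆ * r + E.b₈
        = 5 * e ^ 2 + (6 * r ^ 2 + E.b₂ * r + E.b₄) * e := by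
  obtain ⟨ξ₁, hx1⟩ := exists_hasX_of_ne_zero hP
  obtain ⟨hf1, hx2, hf2, h41, hne, -⟩ := order_five_data hP h5 hx1
  set ξ₂ := gX (E⁄Qbar) ξ₁ / fX (E⁄Qbar) ξ₁ with hξ₂
  -- Galois permutes {ξ₁, ξ₂}
  have hperm : ∀ σ : Γℚ, (σ ξ₁ = ξ₁ ∧ σ ξ₂ = ξ₂) ∨ (σ ξ₁ = ξ₂ ∧ σ ξ₂ = ξ₁) := by
    intro σ
    obtain ⟨k, hk⟩ := hstab σ
    have hσP : σ • P ≠ 0 := fun h0 => hP ((smul_eq_zero_iff_eq σ).mp h0)
    have hkP : k • P ≠ 0 := hk ▸ hσP
    have hxσ : HasX (E⁄Qbar) (k • P) (σ ξ₁) := hk ▸ hasX_galois_smul σ hx1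
    have hσ2 : σ ξ₂ = gX (E⁄Qbar) (σ ξ₁) / fX (E⁄Qbar) (σ ξ₁) := galois_dup E σ ξ₁
    rcases hasX_zsmul_of_order_five h5 hx1 hx2 k hkP with h | h
    · have h1 : σ ξ₁ = ξ₁ := hxσ.unique h
      left
      refine ⟨h1, ?_⟩
      rw [hσ2, h1]
    · have h1 : σ ξ₁ = ξ₂ := hxσ.unique h
      right
      refine ⟨h1, ?_⟩
      rw [hσ2, h1, h41]
  -- symmetric functions are rational
  haveI := isGalois_Qbar
  have hsum : ξ₁ + ξ₂ ∈ Set.range (algebraMap ℚ Qbar) := by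
    rw [InfiniteGalois.mem_range_algebraMap_iff_fixed]
    intro σ
    rcases hperm σ with ⟨h1, h2⟩ | ⟨h1, h2⟩
    · rw [map_add, h1, h2]
    · rw [map_add, h1, h2, add_comm]
  have hprod : ξ₁ * ξ₂ ∈ Set.range (algebraMap ℚ Qbar) := by
    rw [InfiniteGalois.mem_range_algebraMap_iff_fixed]
    intro σ
    rcases hperm σ with ⟨h1, h2⟩ | ⟨h1, h2⟩
    · rw [map_mul, h1, h2]
    · rw [map_mul, h1, h2, mul_comm]
  obtain ⟨s, hs⟩ := hsum
  obtain ⟨q, hq⟩ := hprod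
  -- the relations over Qbar
  have hg1 : gX (E⁄Qbar) ξ₁ = ξ₂ * fX (E⁄Qbar) ξ₁ := by
    rw [hξ₂, div_mul_cancel₀ _ hf1]
  have hg2 : gX (E⁄Qbar) ξ₂ = ξ₁ * fX (E⁄Qbar) ξ₂ := by
    rw [eq_comm, ← eq_div_iff hf2]
    exact h41.symm
  simp only [gX, fX, baseChange_b₂, baseChange_b₄, baseChange_b₆, baseChange_b₈] at hg1 hg2
  set r : ℚ := s / 2 with hr
  set e : ℚ := r ^ 2 - q with he
  have hrK : 2 * (algebraMap ℚ Qbar r) = ξ₁ + ξ₂ := by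
    rw [← hs, hr]
    rw [← map_ofNat (algebraMap ℚ Qbar) 2, ← map_mul]
    congr 1
    ring
  have heK : 4 * (algebraMap ℚ Qbar e) = (ξ₁ - ξ₂) ^ 2 := by
    have h4 : 4 * (algebraMap ℚ Qbar e) = (2 * algebraMap ℚ Qbar r) ^ 2 - 4 * algebraMap ℚ Qbar q := by
      rw [he, map_sub, map_pow]; ring
    rw [h4, hrK, hq]; ring
  obtain ⟨R1, R2⟩ := relations_of_dup (algebraMap ℚ Qbar E.b₂) (algebraMap ℚ Qbar E.b₄)
    (algebraMap ℚ Qbar E.b₆) (algebraMap ℚ Qbar E.b₈) ξ₁ ξ₂ hne hg1 hg2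
    (algebraMap ℚ Qbar r) (algebraMap ℚ Qbar e) hrK heK
  have hinj : Function.Injective (algebraMap ℚ Qbar) := (algebraMap ℚ Qbar).injective
  refine ⟨r, e, ?_, ?_, ?_⟩
  · intro he0
    rw [he0, _root_.map_zero, mul_zero] at heK
    have : ξ₁ - ξ₂ = 0 := by
      have := heK.symm
      exact pow_eq_zero_iff (two_ne_zero) |>.mp this
    exact hne (sub_eq_zero.mp this)
  · apply hinj
    simpa only [map_add, map_mul, map_pow, map_ofNat] using R1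
  · apply hinj
    simpa only [map_add, map_mul, map_pow, map_ofNat] using R2

end Fermat.Agent.S51T5c
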